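import Mathlib
import Fermat.Prelude.Thm_ModularForm_sturm_bound_of_isArithmetic
import Fermat.Agent.S23.BDFormsCore
import Fermat.Agent.S23.BoundedDenom
import Fermat.Agent.S23.FixedField
import Fermat.Agent.DS.Conj.TheoremA

/-!
# DS / Conj: rational and integral structure of cusp forms on a group with a primitive element

Let `G` be a finite index subgroup of `SL(2, ℤ)` with strict period `1` and a primitive element
(`HasPrim G`).  Then, for every weight `k`, the (finite dimensional) space of cusp forms on `G`
is spanned by finitely many forms with *integral* `q`-expansions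
(`exists_integral_spanning`).

The proof is the one of S23 (Galois descent from Theorem A + bounded denominators), with the
group made generic.
-/

set_option autoImplicit false

open UpperHalfPlane ModularForm
open scoped MatrixGroups Manifold

namespace Fermat.Agent.DS.Conj

open Fermat.Agent.S23

section

variable (G : Subgroup SL(2, ℤ)) [G.FiniteIndex]
  (h1 : (1 : ℝ) ∈ (G : Subgroup (GL (Fin 2) ℝ)).strictPeriods)

/-- The `n`-th `q`-coefficient as a linear functional on cusp forms on `G`. -/
noncomputable def coeffLin (k : ℤ) (n : ℕ) : CuspForm G k →ₗ[ℂ] ℂ where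
  toFun f := (qExpansion 1 f).coeff n
  map_add' f g := by
    have h : (⇑(f + g) : ℍ → ℂ) = ⇑f + ⇑g := rfl
    rw [h, (ConjAlt.qan_of_cuspForm f h1).qExpansion_add (ConjAlt.qan_of_cuspForm g h1), map_add]
  map_smul' c f := by
    have h : (⇑(c • f) : ℍ → ℂ) = c • ⇑f := rfl
    rw [h, (ConjAlt.qan_of_cuspForm f h1).qExpansion_smul c]
    simp

omit [G.FiniteIndex] in
theorem coeffLin_apply (k : ℤ) (n : ℕ) (f : CuspForm G k) :
    coeffLin G h1 k n f = (qExpansion 1 f).coeff n := rfl

omit [G.FiniteIndex] in
include h1 in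
/-- A cusp form on `G` is determined by its `q`-expansion. -/
theorem ext_of_qExpansion_eq {k : ℤ} {f g : CuspForm G k}
    (h : qExpansion 1 f = qExpansion 1 g) : f = g :=
  DFunLike.coe_injective
    ((ConjAlt.qan_of_cuspForm f h1).eq_of_qExpansion_eq (ConjAlt.qan_of_cuspForm g h1) h)

include h1 in
/-- The space of cusp forms on `G` is finite dimensional (consequence of the Sturm bound). -/
theorem finiteDimensional_cuspForm_of (k : ℤ) : FiniteDimensional ℂ (CuspForm G k) := by
  set B : ℕ := (k * ((G : Subgroup (GL (Fin 2) ℝ)).relIndex 𝒮ℒ : ℤ)).toNat / 12 with hB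
  let φ : CuspForm G k →ₗ[ℂ] (Fin (B + 1) → ℂ) :=
    LinearMap.pi fun i => coeffLin G h1 k i
  have hφ : Function.Injective φ := by
    rw [← LinearMap.ker_eq_bot, LinearMap.ker_eq_bot']
    intro f hf
    have h0 : (CuspForm.toModularFormₗ f : ModularForm G k) = 0 := by
      apply ModularForm.sturm_bound_of_isArithmetic h1
      have hcoe : (⇑(CuspForm.toModularFormₗ f) : ℍ → ℂ) = ⇑f := rfl
      rw [hcoe]
      have hle : ((B + 1 : ℕ) : ℕ∞) ≤ (qExpansion 1 f).order := by
        apply PowerSeries.nat_le_order
        intro i hi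
        have := congrFun hf ⟨i, hi⟩
        simpa [φ, coeffLin_apply] using this
      refine lt_of_lt_of_le ?_ hle
      exact_mod_cast Nat.lt_succ_self B
    exact CuspForm.toModularFormₗ_injective (by rw [h0, map_zero])
  exact Module.Finite.of_injective φ hφ

include h1 in
/-- The `q`-coefficient functionals span the dual space. -/
theorem span_coeffLin_eq_top (k : ℤ) :
    Submodule.span ℂ (Set.range (coeffLin G h1 k)) = ⊤ := by
  have := finiteDimensional_cuspForm_of G h1 k
  have h : (Submodule.span ℂ (Set.range (coeffLin G h1 k))).dualCoannihilator = ⊥ := by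
    rw [eq_bot_iff]
    intro f hf
    rw [Submodule.mem_dualCoannihilator] at hf
    have h0 : f = 0 := by
      apply ext_of_qExpansion_eq G h1
      ext n
      have h1' := hf (coeffLin G h1 k n) (Submodule.subset_span ⟨n, rfl⟩)
      rw [coeffLin_apply] at h1'
      rw [h1', ← coeffLin_apply G h1 k n (0 : CuspForm G k), map_zero]
    simpa using h0
  have h2 := Subspace.dualCoannihilator_dualAnnihilator_eq
    (W := Submodule.span ℂ (Set.range (coeffLin G h1 k)))
  rw [h, Submodule.dualAnnihilator_bot] at h2
  exact h2.symm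

include h1 in
/-- A basis of the space of cusp forms dual to a family of `q`-coefficient functionals. -/
theorem exists_dual_basis_of (k : ℤ) :
    ∃ (ι : Type) (_ : Fintype ι) (_ : DecidableEq ι) (n : ι → ℕ) (f : ι → CuspForm G k),
      Submodule.span ℂ (Set.range f) = ⊤ ∧
      (∀ i j, (qExpansion 1 (f j)).coeff (n i) = if i = j then 1 else 0) ∧
      (∀ g : CuspForm G k, (∀ i, (qExpansion 1 g).coeff (n i) = 0) → g = 0) := by
  classical
  have := finiteDimensional_cuspForm_of G h1 k
  obtain ⟨b, hbs, hbspan, hbli⟩ := exists_linearIndependent ℂ (Set.range (coeffLin G h1 k))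
  have hb_top : ⊤ ≤ Submodule.span ℂ
      (Set.range ((↑) : b → Module.Dual ℂ (CuspForm G k))) := by
    rw [Subtype.range_coe, hbspan, span_coeffLin_eq_top G h1]
  let e : Module.Basis b ℂ (Module.Dual ℂ (CuspForm G k)) := Module.Basis.mk hbli hb_top
  have : Fintype b := FiniteDimensional.fintypeBasisIndex e
  choose n hn using fun i : b => hbs i.2
  let f : Module.Basis b ℂ (CuspForm G k) :=
    e.dualBasis.map (Module.evalEquiv ℂ (CuspForm G k)).symm
  have key : ∀ i (g : CuspForm G k), (qExpansion 1 g).coeff (n i) = e i g := by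
    intro i g
    rw [← coeffLin_apply G h1, hn i]
    simp [e]
  refine ⟨b, inferInstance, inferInstance, n, f, f.span_eq, ?_, ?_⟩
  · intro i j
    rw [key]
    simp only [f, Module.Basis.map_apply, Module.apply_evalEquiv_symm_apply,
      Module.Basis.dualBasis_apply_self]
  · intro g hg
    rw [← Module.forall_dual_apply_eq_zero_iff ℂ g]
    intro φ
    have hφ : φ ∈ Submodule.span ℂ (Set.range e) := by rw [e.span_eq]; trivial
    induction hφ using Submodule.span_induction with
    | mem x hx =>
      obtain ⟨i, rfl⟩ := hx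
      rw [← key, hg]
    | zero => simp
    | add x y _ _ hx hy => simp [hx, hy]
    | smul c x _ hx => simp [hx]

include h1 in
/-- **Galois descent.** If the space of cusp forms on `G` is stable under conjugation of
`q`-expansions by every ring endomorphism of `ℂ`, then it is spanned by forms with rational
`q`-expansion. -/
theorem exists_rational_spanning_of (k : ℤ)
    (hGS : ∀ (s : ℂ →+* ℂ) (f : CuspForm G k),
      ∃ g : CuspForm G k, qExpansion 1 g = (qExpansion 1 f).map s) :
    ∃ (ι : Type) (_ : Fintype ι) (f : ι → CuspForm G k),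
      Submodule.span ℂ (Set.range f) = ⊤ ∧
      ∀ j n, ∃ r : ℚ, (qExpansion 1 (f j)).coeff n = (r : ℂ) := by
  obtain ⟨ι, hι, hdec, n, f, hspan, hdual, hsep⟩ := exists_dual_basis_of G h1 k
  refine ⟨ι, hι, f, hspan, ?_⟩
  intro j m
  apply exists_rat_of_forall_ringHom_fixed
  intro s
  obtain ⟨g, hg⟩ := hGS s (f j)
  have hcoeff : ∀ m, (qExpansion 1 g).coeff m = s ((qExpansion 1 (f j)).coeff m) := by
    intro m
    rw [hg, PowerSeries.coeff_map]
  have hgf : g = f j := by
    rw [← sub_eq_zero]
    apply hsep
    intro i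
    rw [← coeffLin_apply G h1, map_sub, coeffLin_apply, coeffLin_apply, hcoeff, hdual]
    split_ifs <;> simp
  have := hcoeff m
  rw [hgf] at this
  exact this.symm

include h1 in
/-- **Bounded denominators.** A cusp form with rational `q`-expansion on a group with a
primitive element has a positive integer multiple with integral `q`-expansion. -/
theorem exists_nat_mul_coeff_int (hprim : HasPrim G) {k : ℤ} (f : CuspForm G k)
    (hrat : ∀ n, ∃ r : ℚ, (qExpansion 1 f).coeff n = (r : ℂ)) :
    ∃ M : ℕ, 0 < M ∧ ∀ n, ∃ m : ℤ, (M : ℂ) * (qExpansion 1 f).coeff n = (m : ℂ) := by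
  have qf : QAn (⇑f : ℍ → ℂ) := ConjAlt.qan_of_cuspForm f h1
  -- monic relation
  obtain ⟨d, c, -, hc, hrel, -⟩ :=
    exists_monic_relation (CuspForm.toModularFormₗ f : ModularForm G k)
  obtain ⟨C, hC, hCrel⟩ := BDForms.integral_of_relation qf d c (fun i => ⟨_, hc i⟩) hrel
  -- fraction
  obtain ⟨w, θ, hθint, hθ⟩ := hprim
  obtain ⟨d', W, b, hb0, hden⟩ := exists_levelOne_denominator θ
    (fun γ hγ => Subgroup.mem_map_of_mem _ (hθ γ hγ))
  obtain ⟨r, hr, hrel'⟩ := hden (CuspForm.toModularFormₗ f : ModularForm G k)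
  obtain ⟨A, B, hA, hB, hB0, hAB⟩ := BDForms.frac_of_relation qf
    (ConjAlt.qan_of_modularForm θ h1) hθint ⟨W, b, rfl⟩
    (fun h => hb0 (DFunLike.coe_injective h)) d' r (fun j => ⟨_, hr j⟩) hrel'
  rw [← BDForms.intSpan_eq_span_range] at hA hB
  exact bounded_denominators (qExpansion 1 f) hrat d C
    (fun i => by rw [BDForms.intSpan_eq_span_range]; exact hC i) hCrel A B hA hB hB0 hAB

include h1 in
/-- **Integral spanning family.** The space of cusp forms of weight `k` on a finite index
subgroup `G` of `SL(2, ℤ)` with strict period `1` and a primitive element is spanned by finitely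
many forms with integral `q`-expansions. -/
theorem exists_integral_spanning (hprim : HasPrim G) (k : ℤ) :
    ∃ (d : ℕ) (e : Fin d → CuspForm G k),
      Submodule.span ℂ (Set.range e) = ⊤ ∧
      ∀ i n, ∃ m : ℤ, (qExpansion 1 (e i)).coeff n = (m : ℂ) := by
  classical
  obtain ⟨ι, hι, f, hspan, hrat⟩ := exists_rational_spanning_of G h1 k
    (fun s f => exists_cuspForm_map_of_hasPrim G h1 hprim s f)
  choose M hM0 hM using fun j => exists_nat_mul_coeff_int G h1 hprim (f j) (hrat j)
  let eq : ι ≃ Fin (Fintype.card ι) := Fintype.equivFin ι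
  refine ⟨Fintype.card ι, fun i => (M (eq.symm i) : ℂ) • f (eq.symm i), ?_, ?_⟩
  · rw [eq_top_iff, ← hspan, Submodule.span_le]
    rintro _ ⟨j, rfl⟩
    have hMC : (M j : ℂ) ≠ 0 := by exact_mod_cast (hM0 j).ne'
    have h2 : f j = (M j : ℂ)⁻¹ • ((M j : ℂ) • f j) := by
      rw [smul_smul, inv_mul_cancel₀ hMC, one_smul]
    rw [h2]
    refine Submodule.smul_mem _ _ (Submodule.subset_span ⟨eq j, ?_⟩)
    simp
  · intro i n
    obtain ⟨m, hm⟩ := hM (eq.symm i) n
    refine ⟨m, ?_⟩
    rw [← hm, ← coeffLin_apply G h1, map_smul, coeffLin_apply, smul_eq_mul]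

end

end Fermat.Agent.DS.Conj
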