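import Mathlib

/-!
# DS / Conj: the algebra of eigen-sequences inside a space with an integral structure

Abstract (no modular forms) part of the "conjugates" package for Deligne–Serre.

Data: finitely many integer sequences `E i : ℕ → ℤ` (the `q`-expansions of an integral spanning
family), complex numbers `x i`, and the sequence `a n = ∑ i, x i * E i n`.  Assume `a` satisfies
the eigen-relations `EigenRel P c a`:

  `a 1 = 1`  and  `a (p * n) + c p * [p ∣ n] a (n / p) = a p * a n`  for all `p ∈ P`, all `n`,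

where the numbers `c p` (`p ∈ P`) lie in a subring `O` of `ℂ` which is finitely generated as an
abelian group.  Then:

* `exists_rational_model`: for any subfield `K` containing the `c p` and `a p` (`p ∈ P`) there
  are `y i ∈ K` such that `b n = ∑ i, y i * E i n` satisfies the same eigen-relations and
  `b p = a p` for `p ∈ P`;
* `fg_adjoin_of_eigenRel`: the ring `O[a p : p ∈ P]` is finitely generated as an abelian group;
  in particular all `a p` (`p ∈ P`) are algebraic integers;
* `exists_finset_ringHom_of_fg`: a subring of `ℂ` which is a finitely generated abelian group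
  has only finitely many ring homomorphisms into `ℂ` induced by ring endomorphisms of `ℂ`;
* `eigen_package`: the combination.
-/

set_option autoImplicit false

namespace Fermat.Agent.DS.Conj

/-- The eigen-relations for a sequence `a`, at the set of primes `P`, with "characters" `c`. -/
def EigenRel (P : Set ℕ) (c a : ℕ → ℂ) : Prop :=
  a 1 = 1 ∧ ∀ p ∈ P, ∀ n : ℕ, a (p * n) + c p * (if p ∣ n then a (n / p) else 0) = a p * a n

/-- **Rational model.** -/
theorem exists_rational_model {d : ℕ} (E : Fin d → ℕ → ℤ) (x : Fin d → ℂ) (a : ℕ → ℂ)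
    (P : Set ℕ) (c : ℕ → ℂ) (K : IntermediateField ℚ ℂ)
    (hcK : ∀ p ∈ P, c p ∈ K) (haK : ∀ p ∈ P, a p ∈ K)
    (ha : ∀ n, a n = ∑ i, x i * (E i n : ℂ)) (hrel : EigenRel P c a) :
    ∃ y : Fin d → ℂ, (∀ i, y i ∈ K) ∧ EigenRel P c (fun n => ∑ i, y i * (E i n : ℂ)) ∧
      ∀ p ∈ P, ∑ i, y i * (E i p : ℂ) = a p := by
  obtain ⟨π, hπ⟩ := (Algebra.linearMap K ℂ).exists_leftInverse_of_injective
    (LinearMap.ker_eq_bot.mpr (algebraMap K ℂ).injective)
  have hπK : ∀ z : K, π (z : ℂ) = z := fun z => by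
    have := LinearMap.congr_fun hπ z
    simpa using this
  have hπmul : ∀ (z : K) (w : ℂ), π ((z : ℂ) * w) = z * π w := fun z w => by
    have : (z : ℂ) * w = z • w := by rw [Algebra.smul_def]; rfl
    rw [this, map_smul, smul_eq_mul]
  have key : ∀ n, ∑ i, ((π (x i) : K) : ℂ) * (E i n : ℂ) = ((π (a n) : K) : ℂ) := by
    intro n
    rw [ha n, map_sum]
    push_cast
    refine Finset.sum_congr rfl fun i _ => ?_
    have h : x i * (E i n : ℂ) = (((E i n : ℤ) : K) : ℂ) * x i := by push_cast; ring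
    rw [h, hπmul]
    push_cast
    ring
  refine ⟨fun i => ((π (x i) : K) : ℂ), fun i => (π (x i)).2, ⟨?_, ?_⟩, ?_⟩
  · show ∑ i, ((π (x i) : K) : ℂ) * (E i 1 : ℂ) = 1
    rw [key, hrel.1]
    have := hπK 1
    simp only [OneMemClass.coe_one] at this
    rw [this]
    rfl
  · intro p hp n
    show ∑ i, ((π (x i) : K) : ℂ) * (E i (p * n) : ℂ) +
      c p * (if p ∣ n then ∑ i, ((π (x i) : K) : ℂ) * (E i (n / p) : ℂ) else 0) =
      (∑ i, ((π (x i) : K) : ℂ) * (E i p : ℂ)) * ∑ i, ((π (x i) : K) : ℂ) * (E i n : ℂ)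
    simp only [key]
    have h1 := congrArg π (hrel.2 p hp n)
    set cK : K := ⟨c p, hcK p hp⟩ with hcKdef
    set aK : K := ⟨a p, haK p hp⟩ with haKdef
    rw [map_add] at h1
    have h2 : π (c p * (if p ∣ n then a (n / p) else 0)) =
        cK * (if p ∣ n then π (a (n / p)) else 0) := by
      refine (hπmul cK _).trans ?_
      rw [apply_ite π, map_zero]
    have h3 : π (a p * a n) = aK * π (a n) := hπmul aK _
    have h4 : π (a p) = aK := hπK aK
    rw [h2, h3] at h1
    have h5 := congrArg (fun z : K => (z : ℂ)) h1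
    rw [h4]
    have hcc : c p = (cK : ℂ) := rfl
    rw [hcc]
    by_cases hpn : p ∣ n
    · rw [if_pos hpn] at h5 ⊢
      push_cast at h5
      exact h5
    · rw [if_neg hpn] at h5 ⊢
      push_cast at h5
      exact h5
  · intro p hp
    rw [key]
    exact congrArg (fun z : K => (z : ℂ)) (hπK ⟨a p, haK p hp⟩)

/-- **Finiteness.** If `b n = ∑ i, y i * E i n` (finitely many integer sequences `E i`)
satisfies the eigen-relations with `c p ∈ O` for `p ∈ P`, where the subring `O` is a finitely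
generated abelian group, then the ring `O[b p : p ∈ P]` is a finitely generated abelian group. -/
theorem fg_adjoin_of_eigenRel {d : ℕ} (E : Fin d → ℕ → ℤ) (y : Fin d → ℂ)
    (P : Set ℕ) (c : ℕ → ℂ) (O : Subalgebra ℤ ℂ) (hO : O.toSubmodule.FG)
    (hc : ∀ p ∈ P, c p ∈ O) (hrel : EigenRel P c (fun n => ∑ i, y i * (E i n : ℂ))) :
    (Algebra.adjoin ℤ ((O : Set ℂ) ∪ (fun n => ∑ i, y i * (E i n : ℂ)) '' P)).toSubmodule.FG := by
  classical
  set b : ℕ → ℂ := fun n => ∑ i, y i * (E i n : ℂ) with hb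
  set Y : Submodule ℤ ℂ := Submodule.span ℤ (Set.range y) with hY
  set Bs : Submodule ℤ ℂ := Submodule.span ℤ (Set.range b) with hBs
  set M' : Submodule ℤ ℂ := O.toSubmodule * Bs with hM'
  have hYfg : Y.FG := Submodule.fg_span (Set.finite_range y)
  have hBY : Bs ≤ Y := by
    rw [hBs, Submodule.span_le]
    rintro _ ⟨n, rfl⟩
    refine Submodule.sum_mem _ fun i _ => ?_
    have : y i * (E i n : ℂ) = (E i n) • y i := by rw [zsmul_eq_mul]; ring
    rw [this]
    exact Submodule.smul_mem _ _ (Submodule.subset_span ⟨i, rfl⟩)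
  have hM'fg : M'.FG := by
    have h1 : (O.toSubmodule * Y).FG := hO.mul hYfg
    have h2 : M' ≤ O.toSubmodule * Y := mul_le_mul' le_rfl hBY
    have : IsNoetherian ℤ ↥(O.toSubmodule * Y) := isNoetherian_of_fg_of_noetherian _ h1
    have : IsNoetherian ℤ ↥M' := isNoetherian_of_le h2
    exact (Submodule.fg_top M').mp (IsNoetherian.noetherian _)
  -- `M'` contains `Bs`
  have hBM : Bs ≤ M' := by
    intro z hz
    have : z = 1 * z := (one_mul z).symm
    rw [this]
    exact Submodule.mul_mem_mul (one_mem O) hz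
  have h1M : (1 : ℂ) ∈ M' := by
    apply hBM
    have : (1 : ℂ) = b 1 := hrel.1.symm
    rw [this]
    exact Submodule.subset_span ⟨1, rfl⟩
  -- stability under `O`
  have hOM : ∀ u ∈ O, ∀ m ∈ M', u * m ∈ M' := by
    intro u hu m hm
    refine Submodule.mul_induction_on hm ?_ ?_
    · intro v hv w hw
      rw [← mul_assoc]
      exact Submodule.mul_mem_mul (O.mul_mem hu hv) hw
    · intro v w hv hw
      rw [mul_add]
      exact add_mem hv hw
  -- stability under `b p`
  have hbM : ∀ p ∈ P, ∀ m ∈ M', b p * m ∈ M' := by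
    intro p hp m hm
    have hBs' : ∀ w ∈ Bs, b p * w ∈ M' := by
      intro w hw
      refine Submodule.span_induction ?_ ?_ ?_ ?_ hw
      · rintro _ ⟨n, rfl⟩
        rw [← hrel.2 p hp n]
        refine add_mem (hBM (Submodule.subset_span ⟨_, rfl⟩)) ?_
        refine hOM _ (hc p hp) _ ?_
        split_ifs
        · exact hBM (Submodule.subset_span ⟨_, rfl⟩)
        · exact zero_mem _
      · rw [mul_zero]; exact zero_mem _
      · intro v w _ _ hv hw
        rw [mul_add]; exact add_mem hv hw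
      · intro r v _ hv
        rw [mul_smul_comm]
        exact Submodule.smul_mem _ _ hv
    refine Submodule.mul_induction_on hm ?_ ?_
    · intro v hv w hw
      have : b p * (v * w) = v * (b p * w) := by ring
      rw [this]
      exact hOM v hv _ (hBs' w hw)
    · intro v w hv hw
      rw [mul_add]
      exact add_mem hv hw
  -- the adjoined ring preserves `M'`
  have hSM : ∀ s ∈ Algebra.adjoin ℤ ((O : Set ℂ) ∪ b '' P), ∀ m ∈ M', s * m ∈ M' := by
    intro s hs
    induction hs using Algebra.adjoin_induction with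
    | mem z hz =>
      rcases hz with hz | ⟨p, hp, rfl⟩
      · exact hOM z hz
      · exact hbM p hp
    | algebraMap r =>
      intro m hm
      have : (algebraMap ℤ ℂ r) * m = r • m := by rw [zsmul_eq_mul]; rfl
      rw [this]
      exact Submodule.smul_mem _ _ hm
    | add u v _ _ hu hv =>
      intro m hm
      rw [add_mul]
      exact add_mem (hu m hm) (hv m hm)
    | mul u v _ _ hu hv =>
      intro m hm
      rw [mul_assoc]
      exact hu _ (hv m hm)
  have hle : (Algebra.adjoin ℤ ((O : Set ℂ) ∪ b '' P)).toSubmodule ≤ M' := by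
    intro s hs
    have := hSM s hs 1 h1M
    rwa [mul_one] at this
  have : IsNoetherian ℤ ↥M' := isNoetherian_of_fg_of_noetherian _ hM'fg
  have : IsNoetherian ℤ ↥(Algebra.adjoin ℤ ((O : Set ℂ) ∪ b '' P)).toSubmodule :=
    isNoetherian_of_le hle
  exact (Submodule.fg_top _).mp (IsNoetherian.noetherian _)

/-- A subring of `ℂ` which is a finitely generated abelian group admits only finitely many
restrictions of ring endomorphisms of `ℂ`. -/
theorem exists_finset_ringHom_of_fg (S : Subalgebra ℤ ℂ) (hS : S.toSubmodule.FG) :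
    ∃ T : Finset (ℂ →+* ℂ), ∀ t : ℂ →+* ℂ, ∃ t' ∈ T, ∀ z ∈ S, t z = t' z := by
  classical
  obtain ⟨U, hU⟩ := hS
  have hUint : ∀ u ∈ U, IsIntegral ℤ u := fun u hu =>
    IsIntegral.of_mem_of_fg S ⟨U, hU⟩ u (by
      have : u ∈ Submodule.span ℤ (U : Set ℂ) := Submodule.subset_span hu
      rw [hU] at this
      exact this)
  let Φ : (ℂ →+* ℂ) → (U → ℂ) := fun t u => t u
  have hfin : (Set.range Φ).Finite := by
    refine Set.Finite.subset (Set.Finite.pi' (t := fun u : U =>
      (minpoly ℤ (u : ℂ)).rootSet ℂ) fun u => Polynomial.rootSet_finite _ _) ?_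
    rintro _ ⟨t, rfl⟩ u
    show t u ∈ (minpoly ℤ (u : ℂ)).rootSet ℂ
    rw [Polynomial.mem_rootSet]
    refine ⟨minpoly.ne_zero (hUint u u.2), ?_⟩
    have h1 : Polynomial.aeval (u : ℂ) (minpoly ℤ (u : ℂ)) = 0 := minpoly.aeval ℤ (u : ℂ)
    have h2 := congrArg t h1
    rw [map_zero] at h2
    rw [← h2]
    simp only [Polynomial.aeval_def, Polynomial.eval₂_eq_sum_range, map_sum, map_mul, map_pow]
    refine Finset.sum_congr rfl fun i _ => ?_
    congr 1
    simp
  obtain ⟨T0, -, hbij⟩ := Set.exists_subset_bijOn (Set.univ : Set (ℂ →+* ℂ)) Φ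
  rw [Set.image_univ] at hbij
  have hT0 : T0.Finite := (hbij.finite_iff_finite).mpr hfin
  refine ⟨hT0.toFinset, fun t => ?_⟩
  obtain ⟨t', ht', htt'⟩ := hbij.surjOn ⟨t, rfl⟩
  refine ⟨t', hT0.mem_toFinset.mpr ht', ?_⟩
  intro z hz
  have hz' : z ∈ Submodule.span ℤ (U : Set ℂ) := by rw [hU]; exact hz
  refine Submodule.span_induction ?_ ?_ ?_ ?_ hz'
  · intro u hu
    exact (congrFun htt' ⟨u, hu⟩).symm
  · simp
  · intro v w _ _ hv hw
    rw [map_add, map_add, hv, hw]
  · intro r v _ hv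
    rw [zsmul_eq_mul, map_mul, map_mul, hv]
    simp

/-- **The eigen-package.** -/
theorem eigen_package {d : ℕ} (E : Fin d → ℕ → ℤ) (x : Fin d → ℂ) (a : ℕ → ℂ)
    (P : Set ℕ) (c : ℕ → ℂ) (O : Subalgebra ℤ ℂ) (hO : O.toSubmodule.FG)
    (hc : ∀ p ∈ P, c p ∈ O)
    (ha : ∀ n, a n = ∑ i, x i * (E i n : ℂ)) (hrel : EigenRel P c a) :
    (Algebra.adjoin ℤ ((O : Set ℂ) ∪ a '' P)).toSubmodule.FG ∧
    ∃ (y : Fin d → ℂ) (D : ℕ), 0 < D ∧
      (∀ i, y i ∈ IntermediateField.adjoin ℚ ((O : Set ℂ) ∪ a '' P)) ∧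
      (∀ i, IsIntegral ℤ ((D : ℂ) * y i)) ∧
      EigenRel P c (fun n => ∑ i, y i * (E i n : ℂ)) ∧
      ∀ p ∈ P, ∑ i, y i * (E i p : ℂ) = a p := by
  classical
  set K : IntermediateField ℚ ℂ := IntermediateField.adjoin ℚ ((O : Set ℂ) ∪ a '' P) with hK
  have hcK : ∀ p ∈ P, c p ∈ K := fun p hp =>
    IntermediateField.subset_adjoin ℚ _ (Or.inl (hc p hp))
  have haK : ∀ p ∈ P, a p ∈ K := fun p hp =>
    IntermediateField.subset_adjoin ℚ _ (Or.inr ⟨p, hp, rfl⟩)
  obtain ⟨y, hyK, hyrel, hyp⟩ := exists_rational_model E x a P c K hcK haK ha hrel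
  have himg : (fun n => ∑ i, y i * (E i n : ℂ)) '' P = a '' P :=
    Set.image_congr fun p hp => hyp p hp
  have hfg := fg_adjoin_of_eigenRel E y P c O hO hc hyrel
  rw [himg] at hfg
  refine ⟨hfg, ?_⟩
  -- `K` is algebraic
  have hgen : ∀ z ∈ (O : Set ℂ) ∪ a '' P, IsIntegral ℚ z := by
    intro z hz
    have : IsIntegral ℤ z := IsIntegral.of_mem_of_fg _ hfg z (Algebra.subset_adjoin hz)
    exact this.tower_top
  have hKalg : Algebra.IsAlgebraic ℚ K := IntermediateField.isAlgebraic_adjoin hgen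
  have hyint : ∀ i, ∃ D : ℕ, 0 < D ∧ IsIntegral ℤ ((D : ℂ) * y i) := by
    intro i
    have h1 : IsAlgebraic ℚ (⟨y i, hyK i⟩ : K) := Algebra.IsAlgebraic.isAlgebraic _
    have h2 : IsAlgebraic ℚ (y i) := by
      have := h1.algebraMap (A := ℂ)
      exact this
    have h3 : IsAlgebraic ℤ (y i) := (IsFractionRing.isAlgebraic_iff ℤ ℚ ℂ).mpr h2
    obtain ⟨m, hm0, hm⟩ := h3.exists_integral_multiple
    refine ⟨m.natAbs, Int.natAbs_pos.mpr hm0, ?_⟩
    rw [zsmul_eq_mul] at hm
    rcases Int.natAbs_eq m with h | h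
    · have : ((m.natAbs : ℕ) : ℂ) = (m : ℂ) := by
        conv_rhs => rw [h]
        simp
      rw [this]
      exact hm
    · have : ((m.natAbs : ℕ) : ℂ) * y i = -((m : ℂ) * y i) := by
        conv_rhs => rw [h]
        simp
      rw [this]
      exact hm.neg
  choose Dfun hD0 hDint using hyint
  refine ⟨y, ∏ i, Dfun i, Finset.prod_pos fun i _ => hD0 i, hyK, fun i => ?_, hyrel, hyp⟩
  have h1 : ((∏ j, Dfun j : ℕ) : ℂ) * y i =
      ((∏ j ∈ Finset.univ.erase i, Dfun j : ℕ) : ℂ) * ((Dfun i : ℂ) * y i) := by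
    rw [← Finset.mul_prod_erase Finset.univ Dfun (Finset.mem_univ i)]
    push_cast
    ring
  rw [h1]
  exact (isIntegral_natCast (R := ℤ) (B := ℂ) _).mul (hDint i)

end Fermat.Agent.DS.Conj
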