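import Mathlib
import Fermat.Agent.S23.Theta
import Fermat.Agent.S23.Defs
import Fermat.Agent.S23.ConjAlt
import Fermat.Agent.DS.Conj.TheoremA

/-!
# DS / Conj: a primitive element for `Γ₁(N)` from a weight `3` form

Let `H` be a modular form of weight `3` on `Γ₁(N)` with integral `q`-expansion such that every
`γ ∈ Γ₀(N)` fixing `H` lies in `Γ₁(N)`.  Then `Γ₁(N)` has a primitive element
(`Fermat.Agent.DS.Conj.HasPrim`), namely

  `H · θ · (θ + t · E₄)`   (weight `11`)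

for a suitable integer `t`, where `θ(τ) = N³ E₄(N τ)` is the primitive element of `Γ₀(N)`
constructed in S23.  (For all but finitely many `t`, a matrix fixing this form fixes both
`H θ²` and `H θ E₄`, hence `θ` and `H`.)
-/

set_option autoImplicit false

open UpperHalfPlane ModularForm CongruenceSubgroup
open scoped MatrixGroups Manifold

namespace Fermat.Agent.DS.Conj

open Fermat.Agent.S23

/-- Restriction of a modular form to a smaller group. -/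
noncomputable def restrictForm {Γ' Γ : Subgroup (GL (Fin 2) ℝ)} (h : Γ' ≤ Γ) {k : ℤ}
    (f : ModularForm Γ k) : ModularForm Γ' k where
  toFun := f
  slash_action_eq' γ hγ := f.slash_action_eq' γ (h hγ)
  holo' := f.holo'
  bdd_at_cusps' hc := f.bdd_at_cusps' (hc.mono h)

theorem coe_restrictForm {Γ' Γ : Subgroup (GL (Fin 2) ℝ)} (h : Γ' ≤ Γ) {k : ℤ}
    (f : ModularForm Γ k) : (⇑(restrictForm h f) : ℍ → ℂ) = ⇑f := rfl

theorem Gamma1_map_le_Gamma0_map (N : ℕ) :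
    ((Gamma1 N : Subgroup SL(2, ℤ)) : Subgroup (GL (Fin 2) ℝ)) ≤
      ((Gamma0 N : Subgroup SL(2, ℤ)) : Subgroup (GL (Fin 2) ℝ)) :=
  Subgroup.map_mono (Gamma1_in_Gamma0 N)

theorem Gamma1_map_le_SL (N : ℕ) :
    ((Gamma1 N : Subgroup SL(2, ℤ)) : Subgroup (GL (Fin 2) ℝ)) ≤ 𝒮ℒ :=
  Subgroup.map_le_range _ _

theorem one_mem_strictPeriods_Gamma1' (N : ℕ) :
    (1 : ℝ) ∈ ((Gamma1 N : Subgroup SL(2, ℤ)) : Subgroup (GL (Fin 2) ℝ)).strictPeriods := by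
  have hT : ModularGroup.T ∈ Gamma1 N := by
    rw [Gamma1_mem]
    simp [ModularGroup.T]
  rw [Subgroup.strictPeriods_eq_zmultiples_one_of_T_mem hT]
  exact AddSubgroup.mem_zmultiples (1 : ℝ)

/-- Level one forms are invariant under the slash action of `SL(2, ℤ)`. -/
theorem levelOne_slash {k : ℤ} (E : ModularForm 𝒮ℒ k) (γ : SL(2, ℤ)) :
    (⇑E : ℍ → ℂ) ∣[k] γ = ⇑E :=
  E.slash_action_eq' _ (MonoidHom.mem_range.mpr ⟨γ, rfl⟩)

/-- **Primitive element for `Γ₁(N)`** from a weight `3` form separating `Γ₁(N)` inside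
`Γ₀(N)`. -/
theorem hasPrim_Gamma1_of_weight_three (N : ℕ) [NeZero N] (H : ModularForm (Gamma1 N) 3)
    (hHint : ∀ n, ∃ m : ℤ, (qExpansion 1 H).coeff n = (m : ℂ))
    (hHstab : ∀ γ ∈ Gamma0 N, (⇑H : ℍ → ℂ) ∣[(3 : ℤ)] γ = ⇑H → γ ∈ Gamma1 N) :
    HasPrim (Gamma1 N) := by
  classical
  have h1 := one_mem_strictPeriods_Gamma1' N
  set θ : ModularForm (Gamma1 N) 4 := restrictForm (Gamma1_map_le_Gamma0_map N) (Theta.theta N)
    with hθdef
  set E : ModularForm (Gamma1 N) 4 := restrictForm (Gamma1_map_le_SL N) E₄ with hEdef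
  have hθcoe : (⇑θ : ℍ → ℂ) = ⇑(Theta.theta N) := rfl
  have hEcoe : (⇑E : ℍ → ℂ) = ⇑E₄ := rfl
  have hθint : ∀ n, ∃ m : ℤ, (qExpansion 1 θ).coeff n = (m : ℂ) := by
    rw [hθcoe]; exact Theta.theta_coeff_int N
  have hEint : ∀ n, ∃ m : ℤ, (qExpansion 1 E).coeff n = (m : ℂ) := by
    rw [hEcoe]; exact Theta.E4_coeff_int
  by_cases hH0 : (⇑H : ℍ → ℂ) = 0
  · refine ⟨4, θ, hθint, fun γ hγ => ?_⟩
    refine hHstab γ (Theta.mem_Gamma0_of_theta_slash_eq N γ hγ) ?_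
    rw [hH0]
    exact SlashAction.zero_slash _ _
  -- the main case
  have hθ0 : (⇑θ : ℍ → ℂ) ≠ 0 := Theta.theta_ne_zero N
  have hE0 : (⇑E : ℍ → ℂ) ≠ 0 := by
    rw [hEcoe]
    intro h0
    have h2 : (qExpansion 1 E₄).coeff 0 = 0 := by
      rw [h0]; simp [UpperHalfPlane.qExpansion_zero]
    rw [EisensteinSeries.E_qExpansion_coeff (by norm_num) ⟨2, rfl⟩ 0] at h2
    simp at h2
  have mH : MDiff (⇑H : ℍ → ℂ) := H.holo'
  have mθ : MDiff (⇑θ : ℍ → ℂ) := θ.holo'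
  have mE : MDiff (⇑E : ℍ → ℂ) := E.holo'
  set A : ℍ → ℂ := ⇑H * (⇑θ * ⇑θ) with hA
  set B : ℍ → ℂ := ⇑H * (⇑θ * ⇑E) with hB
  have hEγ : ∀ γ : SL(2, ℤ), (⇑E : ℍ → ℂ) ∣[(4 : ℤ)] γ = ⇑E := fun γ => by
    rw [hEcoe]; exact levelOne_slash E₄ γ
  have hAγ : ∀ γ : SL(2, ℤ), A ∣[(3 + (4 + 4) : ℤ)] γ =
      (⇑H : ℍ → ℂ) ∣[(3 : ℤ)] γ * ((⇑θ : ℍ → ℂ) ∣[(4 : ℤ)] γ * (⇑θ : ℍ → ℂ) ∣[(4 : ℤ)] γ) := by
    intro γ
    rw [hA, ModularForm.mul_slash_SL2, ModularForm.mul_slash_SL2]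
  have hBγ : ∀ γ : SL(2, ℤ), B ∣[(3 + (4 + 4) : ℤ)] γ =
      (⇑H : ℍ → ℂ) ∣[(3 : ℤ)] γ * ((⇑θ : ℍ → ℂ) ∣[(4 : ℤ)] γ * ⇑E) := by
    intro γ
    rw [hB, ModularForm.mul_slash_SL2, ModularForm.mul_slash_SL2, hEγ]
  -- a matrix fixing `A` and `B` lies in `Γ₁(N)`
  have key : ∀ γ : SL(2, ℤ), A ∣[(3 + (4 + 4) : ℤ)] γ = A → B ∣[(3 + (4 + 4) : ℤ)] γ = B →
      γ ∈ Gamma1 N := by
    intro γ hAfix hBfix
    rw [hAγ] at hAfix
    rw [hBγ] at hBfix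
    set h : ℍ → ℂ := (⇑H : ℍ → ℂ) ∣[(3 : ℤ)] γ with hh
    set ϑ : ℍ → ℂ := (⇑θ : ℍ → ℂ) ∣[(4 : ℤ)] γ with hϑ
    have mh : MDiff h := mH.slash 3 _
    have mϑ : MDiff ϑ := mθ.slash 4 _
    -- `h ϑ = H θ`
    have e1 : h * ϑ = ⇑H * ⇑θ := by
      have : (h * ϑ - ⇑H * ⇑θ) * ⇑E = 0 := by
        rw [sub_mul, sub_eq_zero]
        calc h * ϑ * ⇑E = h * (ϑ * ⇑E) := by ring
          _ = ⇑H * (⇑θ * ⇑E) := hBfix
          _ = ⇑H * ⇑θ * ⇑E := by ring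
      rcases (UpperHalfPlane.mul_eq_zero_iff ((mh.mul mϑ).sub (mH.mul mθ)) mE).mp this with h6 | h6
      · exact sub_eq_zero.mp h6
      · exact absurd h6 hE0
    have hHθ0 : (⇑H : ℍ → ℂ) * ⇑θ ≠ 0 := by
      intro h0
      rcases (UpperHalfPlane.mul_eq_zero_iff mH mθ).mp h0 with h6 | h6
      · exact hH0 h6
      · exact hθ0 h6
    -- `ϑ = θ`
    have e2 : ϑ = ⇑θ := by
      have : (⇑H * ⇑θ) * (ϑ - ⇑θ) = 0 := by
        rw [mul_sub, sub_eq_zero]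
        calc (⇑H : ℍ → ℂ) * ⇑θ * ϑ = h * ϑ * ϑ := by rw [e1]
          _ = h * (ϑ * ϑ) := by ring
          _ = ⇑H * (⇑θ * ⇑θ) := hAfix
          _ = ⇑H * ⇑θ * ⇑θ := by ring
      rcases (UpperHalfPlane.mul_eq_zero_iff (mH.mul mθ) (mϑ.sub mθ)).mp this with h6 | h6
      · exact absurd h6 hHθ0
      · exact sub_eq_zero.mp h6
    -- `h = H`
    have e3 : h = ⇑H := by
      have : (h - ⇑H) * ⇑θ = 0 := by
        rw [sub_mul, sub_eq_zero, ← e1, e2]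
      rcases (UpperHalfPlane.mul_eq_zero_iff (mh.sub mH) mθ).mp this with h6 | h6
      · exact sub_eq_zero.mp h6
      · exact absurd h6 hθ0
    exact hHstab γ (Theta.mem_Gamma0_of_theta_slash_eq N γ e2) e3
  -- the family of candidates
  let F : ℂ → ModularForm (Gamma1 N) (3 + (4 + 4)) := fun t => H.mul (θ.mul (θ + t • E))
  have hFcoe : ∀ t : ℂ, (⇑(F t) : ℍ → ℂ) = A + t • B := by
    intro t
    funext z
    show H z * (θ z * (θ z + t • E z)) = H z * (θ z * θ z) + t • (H z * (θ z * E z))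
    simp only [smul_eq_mul]
    ring
  -- the bad parameters
  let bad : SL(2, ℤ) → Set ℂ := fun γ =>
    {t : ℂ | (A + t • B) ∣[(3 + (4 + 4) : ℤ)] γ = A + t • B}
  have hbad_sub : ∀ γ : SL(2, ℤ), γ ∉ Gamma1 N → (bad γ).Subsingleton := by
    intro γ hγ t₁ ht₁ t₂ ht₂
    by_contra hne
    have h1' : A ∣[(3 + (4 + 4) : ℤ)] γ + t₁ • B ∣[(3 + (4 + 4) : ℤ)] γ = A + t₁ • B := by
      have := ht₁
      simp only [bad, Set.mem_ofPred_eq] at this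
      rwa [SlashAction.add_slash, ModularForm.SL_smul_slash] at this
    have h2' : A ∣[(3 + (4 + 4) : ℤ)] γ + t₂ • B ∣[(3 + (4 + 4) : ℤ)] γ = A + t₂ • B := by
      have := ht₂
      simp only [bad, Set.mem_ofPred_eq] at this
      rwa [SlashAction.add_slash, ModularForm.SL_smul_slash] at this
    have h3 : (t₁ - t₂) • (B ∣[(3 + (4 + 4) : ℤ)] γ - B) = 0 := by
      have := congrArg₂ (· - ·) h1' h2'
      rw [sub_smul, smul_sub, smul_sub]
      linear_combination (exp := 1) this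
    have h4 : B ∣[(3 + (4 + 4) : ℤ)] γ = B := by
      rcases smul_eq_zero.mp h3 with h5 | h5
      · exact absurd (sub_eq_zero.mp h5) hne
      · exact sub_eq_zero.mp h5
    have h5 : A ∣[(3 + (4 + 4) : ℤ)] γ = A := by
      rw [h4] at h1'
      exact add_right_cancel h1'
    exact hγ (key γ h5 h4)
  have hbad_mul : ∀ (δ : SL(2, ℤ)), δ ∈ Gamma1 N → ∀ γ : SL(2, ℤ), bad (δ * γ) = bad γ := by
    intro δ hδ γ
    ext t
    simp only [bad, Set.mem_ofPred_eq]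
    have hinv : (A + t • B) ∣[(3 + (4 + 4) : ℤ)] δ = A + t • B := by
      rw [← hFcoe t]
      exact (F t).slash_action_eq' _ (Subgroup.mem_map_of_mem _ hδ)
    rw [SlashAction.slash_mul, hinv]
  have : Finite (SL(2, ℤ) ⧸ Gamma1 N) := Subgroup.finite_quotient_of_finiteIndex
  let S : Set ℂ := ⋃ (q : SL(2, ℤ) ⧸ Gamma1 N) (_ : (Quotient.out q)⁻¹ ∉ Gamma1 N),
    bad ((Quotient.out q)⁻¹)
  have hSfin : S.Finite := by
    refine Set.finite_iUnion fun q => ?_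
    refine Set.finite_iUnion fun hq => ?_
    exact (hbad_sub _ hq).finite
  have hS' : {t : ℤ | (t : ℂ) ∈ S}.Finite :=
    hSfin.preimage (Int.cast_injective.injOn)
  obtain ⟨t, ht⟩ := hS'.exists_notMem
  have htS : (t : ℂ) ∉ S := ht
  refine ⟨3 + (4 + 4), F (t : ℂ), ?_, ?_⟩
  · -- integrality
    have qH := ConjAlt.qan_of_modularForm H h1
    have qθ := ConjAlt.qan_of_modularForm θ h1
    have qE := ConjAlt.qan_of_modularForm E h1
    have hcoe : (⇑(F (t : ℂ)) : ℍ → ℂ) = ⇑H * (⇑θ * (⇑θ + (t : ℂ) • ⇑E)) := rfl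
    rw [hcoe, qH.qExpansion_mul (qθ.mul (qθ.add (qE.smul _))),
      qθ.qExpansion_mul (qθ.add (qE.smul _)), qθ.qExpansion_add (qE.smul _),
      qE.qExpansion_smul]
    have iH : IsIntSeries (qExpansion 1 H) := hHint
    have iθ : IsIntSeries (qExpansion 1 θ) := hθint
    have iE : IsIntSeries (qExpansion 1 E) := hEint
    have iE' : IsIntSeries ((t : ℂ) • qExpansion 1 E) := by
      have := iE.zsmul t
      rwa [← Int.cast_smul_eq_zsmul ℂ] at this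
    exact iH.mul (iθ.mul (iθ.add iE'))
  · intro γ hγ
    by_contra hγ1
    apply htS
    obtain ⟨δ, hδ⟩ := QuotientGroup.mk_out_eq_mul (Gamma1 N) γ⁻¹
    have hrep : (Quotient.out (QuotientGroup.mk γ⁻¹ : SL(2, ℤ) ⧸ Gamma1 N))⁻¹ =
        (δ : SL(2, ℤ))⁻¹ * γ := by
      rw [hδ, mul_inv_rev, inv_inv]
    have hnot : (Quotient.out (QuotientGroup.mk γ⁻¹ : SL(2, ℤ) ⧸ Gamma1 N))⁻¹ ∉ Gamma1 N := by
      rw [hrep]
      intro hmem
      apply hγ1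
      have := (Gamma1 N).mul_mem δ.2 hmem
      rwa [mul_inv_cancel_left] at this
    have hmemS : (t : ℂ) ∈ bad ((Quotient.out (QuotientGroup.mk γ⁻¹ : SL(2, ℤ) ⧸ Gamma1 N))⁻¹) := by
      rw [hrep, hbad_mul _ ((Gamma1 N).inv_mem δ.2)]
      simp only [bad, Set.mem_ofPred_eq]
      rw [← hFcoe]
      exact hγ
    exact Set.mem_iUnion.mpr ⟨_, Set.mem_iUnion.mpr ⟨hnot, hmemS⟩⟩

end Fermat.Agent.DS.Conj
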