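import Mathlib
import Fermat.Prelude.Def_FLTPrelim_Modularity
import Fermat.Agent.DS.Conj.Basis
import Fermat.Agent.DS.Conj.EigenAlg
import Fermat.Agent.DS.Conj.Prim

/-!
# DS / Conj: the "RAT" package for eigen-forms on `Γ₁(N)` (from a primitive element)

Everything here takes `hprim : HasPrim (Gamma1 N)` as a hypothesis (it is discharged in
`Fermat.Agent.DS.Conj.PrimE3` once the weight `3` Eisenstein series is available).

For a cusp form `f` of weight `k` on `Γ₁(N)` whose `q`-coefficients satisfy the eigen-relations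
of the frozen statement S48 (`IsEigenSeq N ε (qCoeff f)`):

* `exists_cuspForm_conj_Gamma1`: Theorem A on `Γ₁(N)` (all weights, no eigen-hypothesis);
* `exists_integral_spanning_Gamma1`: integral spanning family of `S_k(Γ₁(N))`;
* `eigenRing_fg`: the ring `ℤ[ε][a_p : p ∤ N]` is a finitely generated abelian group;
* `isIntegral_qCoeff_prime`: the `a_p` (`p ∤ N`) are algebraic integers;
* `exists_integral_model`: a cusp form `h` with the same `a_p` (`p ∤ N`), the same relations,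
  and `D * a_n(h)` integral over `ℤ` for all `n`;
* `exists_finset_conj`: finitely many ring homomorphisms of `ℂ` induce all conjugates of the
  `a_p` and of the values of `ε`;
* `conj_isEigenSeq`: the conjugate of an eigen-sequence is an eigen-sequence for the conjugate
  character.
-/

set_option autoImplicit false

open UpperHalfPlane ModularForm CongruenceSubgroup ModularFormClass
open scoped MatrixGroups Manifold

namespace Fermat.Agent.DS.Conj

/-- The eigen-relations of the frozen statement S48, for a sequence `a`. -/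
def IsEigenSeq (N : ℕ) (ε : DirichletCharacter ℂ N) (a : ℕ → ℂ) : Prop :=
  a 1 = 1 ∧ ∀ p : ℕ, p.Prime → ¬ p ∣ N → ∀ n : ℕ,
    a (p * n) + ε (p : ZMod N) * (if p ∣ n then a (n / p) else 0) = a p * a n

/-- The primes not dividing `N`. -/
def goodPrimes (N : ℕ) : Set ℕ := {p | p.Prime ∧ ¬ p ∣ N}

theorem mem_goodPrimes {N p : ℕ} : p ∈ goodPrimes N ↔ p.Prime ∧ ¬ p ∣ N := Iff.rfl

theorem isEigenSeq_iff_eigenRel (N : ℕ) (ε : DirichletCharacter ℂ N) (a : ℕ → ℂ) :
    IsEigenSeq N ε a ↔ EigenRel (goodPrimes N) (fun p => ε (p : ZMod N)) a := by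
  unfold IsEigenSeq EigenRel
  refine and_congr Iff.rfl ⟨fun h p hp n => h p hp.1 hp.2 n, fun h p hp hpN n => h p ⟨hp, hpN⟩ n⟩

/-- The ring `ℤ[ε]` generated by the values of a Dirichlet character. -/
noncomputable def charRing {N : ℕ} (ε : DirichletCharacter ℂ N) : Subalgebra ℤ ℂ :=
  Algebra.adjoin ℤ (Set.range ε)

theorem isIntegral_char {N : ℕ} [NeZero N] (ε : DirichletCharacter ℂ N) (x : ZMod N) :
    IsIntegral ℤ (ε x) := by
  by_cases hx : IsUnit x
  · obtain ⟨u, rfl⟩ := hx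
    have h1 : ε (u : ZMod N) ^ Fintype.card (ZMod N)ˣ = 1 := by
      rw [← map_pow, ← Units.val_pow_eq_pow_val, pow_card_eq_one, Units.val_one, map_one]
    refine IsIntegral.of_pow (Fintype.card_pos (α := (ZMod N)ˣ)) ?_
    rw [h1]
    exact isIntegral_one
  · rw [MulChar.map_nonunit ε hx]
    exact isIntegral_zero

theorem charRing_fg {N : ℕ} [NeZero N] (ε : DirichletCharacter ℂ N) :
    (charRing ε).toSubmodule.FG :=
  fg_adjoin_of_finite (Set.finite_range _) (by rintro _ ⟨x, rfl⟩; exact isIntegral_char ε x)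

theorem char_mem_charRing {N : ℕ} (ε : DirichletCharacter ℂ N) (x : ZMod N) :
    ε x ∈ charRing ε :=
  Algebra.subset_adjoin ⟨x, rfl⟩

/-- The ring `ℤ[ε][a_p : p ∤ N]` of an eigen-sequence. -/
noncomputable def eigenRing (N : ℕ) (ε : DirichletCharacter ℂ N) (a : ℕ → ℂ) : Subalgebra ℤ ℂ :=
  Algebra.adjoin ℤ ((charRing ε : Set ℂ) ∪ a '' goodPrimes N)

theorem char_mem_eigenRing {N : ℕ} (ε : DirichletCharacter ℂ N) (a : ℕ → ℂ) (x : ZMod N) :
    ε x ∈ eigenRing N ε a :=
  Algebra.subset_adjoin (Or.inl (char_mem_charRing ε x))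

theorem coeff_mem_eigenRing {N : ℕ} (ε : DirichletCharacter ℂ N) (a : ℕ → ℂ) {p : ℕ}
    (hp : p.Prime) (hpN : ¬ p ∣ N) : a p ∈ eigenRing N ε a :=
  Algebra.subset_adjoin (Or.inr ⟨p, ⟨hp, hpN⟩, rfl⟩)

/-- The conjugate of an eigen-sequence by a ring homomorphism is an eigen-sequence for the
conjugate character. -/
theorem conj_isEigenSeq {N : ℕ} (ε : DirichletCharacter ℂ N) (a : ℕ → ℂ) (s : ℂ →+* ℂ)
    (h : IsEigenSeq N ε a) : IsEigenSeq N (ε.ringHomComp s) (fun n => s (a n)) := by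
  refine ⟨by show s (a 1) = 1; rw [h.1, map_one], fun p hp hpN n => ?_⟩
  have h1 := congrArg s (h.2 p hp hpN n)
  rw [map_add, map_mul, map_mul, apply_ite s, map_zero] at h1
  exact h1

section Gamma1

variable {N : ℕ} [NeZero N] (hprim : HasPrim (Gamma1 N))

include hprim in
/-- **Theorem A on `Γ₁(N)`**: conjugates of cusp forms are cusp forms. -/
theorem exists_cuspForm_conj_Gamma1 (s : ℂ →+* ℂ) {k : ℤ} (f : CuspForm (Gamma1 N) k) :
    ∃ g : CuspForm (Gamma1 N) k, qExpansion 1 g = (qExpansion 1 f).map s :=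
  exists_cuspForm_map_of_hasPrim (Gamma1 N) (one_mem_strictPeriods_Gamma1' N) hprim s f

include hprim in
/-- Theorem A on `Γ₁(N)`, coefficientwise. -/
theorem exists_cuspForm_conj_qCoeff (s : ℂ →+* ℂ) {k : ℤ} (f : CuspForm (Gamma1 N) k) :
    ∃ g : CuspForm (Gamma1 N) k, ∀ n, qCoeff g n = s (qCoeff f n) := by
  obtain ⟨g, hg⟩ := exists_cuspForm_conj_Gamma1 hprim s f
  refine ⟨g, fun n => ?_⟩
  unfold qCoeff
  rw [hg, PowerSeries.coeff_map]

include hprim in
/-- **Integral spanning family** of `S_k(Γ₁(N))`. -/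
theorem exists_integral_spanning_Gamma1 (k : ℤ) :
    ∃ (d : ℕ) (e : Fin d → CuspForm (Gamma1 N) k),
      Submodule.span ℂ (Set.range e) = ⊤ ∧
      ∀ i n, ∃ m : ℤ, (qExpansion 1 (e i)).coeff n = (m : ℂ) :=
  exists_integral_spanning (Gamma1 N) (one_mem_strictPeriods_Gamma1' N) hprim k

include hprim in
/-- The abstract eigen-package, for a cusp form on `Γ₁(N)`. -/
theorem eigen_package_Gamma1 (ε : DirichletCharacter ℂ N) {k : ℤ} (f : CuspForm (Gamma1 N) k)
    (hf : IsEigenSeq N ε (qCoeff f)) :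
    (eigenRing N ε (qCoeff f)).toSubmodule.FG ∧
    ∃ (h : CuspForm (Gamma1 N) k) (D : ℕ), 0 < D ∧ IsEigenSeq N ε (qCoeff h) ∧
      (∀ p : ℕ, p.Prime → ¬ p ∣ N → qCoeff h p = qCoeff f p) ∧
      (∀ n, IsIntegral ℤ ((D : ℂ) * qCoeff h n)) ∧
      ∀ n, qCoeff h n ∈ IntermediateField.adjoin ℚ
        ((charRing ε : Set ℂ) ∪ (qCoeff f) '' goodPrimes N) := by
  classical
  have h1 := one_mem_strictPeriods_Gamma1' N
  obtain ⟨d, e, hspan, hint⟩ := exists_integral_spanning_Gamma1 hprim k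
  choose E hE using hint
  have hfmem : f ∈ Submodule.span ℂ (Set.range e) := by rw [hspan]; trivial
  obtain ⟨x, hx⟩ := (Submodule.mem_span_range_iff_exists_fun ℂ).mp hfmem
  have hcoeff : ∀ (y : Fin d → ℂ) (n : ℕ),
      qCoeff (⇑(∑ i, y i • e i)) n = ∑ i, y i * (E i n : ℂ) := by
    intro y n
    show (qExpansion 1 (⇑(∑ i, y i • e i) : ℍ → ℂ)).coeff n = _
    rw [← coeffLin_apply (Gamma1 N) h1, map_sum]
    refine Finset.sum_congr rfl fun i _ => ?_
    rw [map_smul, coeffLin_apply, hE, smul_eq_mul]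
  have ha : ∀ n, qCoeff f n = ∑ i, x i * (E i n : ℂ) := by
    intro n
    rw [← hcoeff x n, hx]
  have hrel : EigenRel (goodPrimes N) (fun p => ε (p : ZMod N)) (qCoeff f) :=
    (isEigenSeq_iff_eigenRel N ε _).mp hf
  obtain ⟨hfg, y, D, hD, hyK, hyint, hyrel, hyp⟩ :=
    eigen_package E x (qCoeff f) (goodPrimes N) (fun p => ε (p : ZMod N)) (charRing ε)
      (charRing_fg ε) (fun p _ => char_mem_charRing ε _) ha hrel
  refine ⟨hfg, ∑ i, y i • e i, D, hD, ?_, ?_, ?_, ?_⟩
  · rw [isEigenSeq_iff_eigenRel]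
    have : (fun n => qCoeff (⇑(∑ i, y i • e i)) n) = fun n => ∑ i, y i * (E i n : ℂ) :=
      funext (hcoeff y)
    show EigenRel _ _ (fun n => qCoeff (⇑(∑ i, y i • e i)) n)
    rw [this]
    exact hyrel
  · intro p hp hpN
    rw [hcoeff y p]
    exact hyp p ⟨hp, hpN⟩
  · intro n
    rw [hcoeff y n, Finset.mul_sum]
    refine IsIntegral.sum _ fun i _ => ?_
    have : (D : ℂ) * (y i * (E i n : ℂ)) = ((D : ℂ) * y i) * (E i n : ℂ) := by ring
    rw [this]
    exact (hyint i).mul (isIntegral_intCast _)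
  · intro n
    rw [hcoeff y n]
    refine sum_mem fun i _ => ?_
    exact mul_mem (hyK i) (intCast_mem _ _)

include hprim in
/-- The ring `ℤ[ε][a_p : p ∤ N]` of an eigenform on `Γ₁(N)` is a finitely generated abelian
group. -/
theorem eigenRing_fg (ε : DirichletCharacter ℂ N) {k : ℤ} (f : CuspForm (Gamma1 N) k)
    (hf : IsEigenSeq N ε (qCoeff f)) : (eigenRing N ε (qCoeff f)).toSubmodule.FG :=
  (eigen_package_Gamma1 hprim ε f hf).1

include hprim in
/-- The eigenvalues `a_p` (`p ∤ N`) are algebraic integers. -/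
theorem isIntegral_qCoeff_prime (ε : DirichletCharacter ℂ N) {k : ℤ} (f : CuspForm (Gamma1 N) k)
    (hf : IsEigenSeq N ε (qCoeff f)) {p : ℕ} (hp : p.Prime) (hpN : ¬ p ∣ N) :
    IsIntegral ℤ (qCoeff f p) :=
  IsIntegral.of_mem_of_fg _ (eigenRing_fg hprim ε f hf) _ (coeff_mem_eigenRing ε _ hp hpN)

include hprim in
/-- **Integral model** (the target `exists_integral_model` of the DS design, layer RAT): a cusp
form `h` with `a_1 = 1`, the same eigenvalues `a_p` (`p ∤ N`) and the same Hecke relations as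
`f`, all of whose `q`-coefficients become algebraic integers after multiplication by one positive
integer `D`. -/
theorem exists_integral_model (ε : DirichletCharacter ℂ N) {k : ℤ} (f : CuspForm (Gamma1 N) k)
    (hf₁ : qCoeff f 1 = 1)
    (hT : ∀ p : ℕ, p.Prime → ¬ p ∣ N → ∀ n : ℕ,
        qCoeff f (p * n) + ε (p : ZMod N) * (if p ∣ n then qCoeff f (n / p) else 0) =
          qCoeff f p * qCoeff f n) :
    ∃ (h : CuspForm (Gamma1 N) k) (D : ℕ), 0 < D ∧ qCoeff h 1 = 1 ∧
      (∀ p : ℕ, p.Prime → ¬ p ∣ N → qCoeff h p = qCoeff f p) ∧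
      (∀ p : ℕ, p.Prime → ¬ p ∣ N → ∀ n : ℕ,
        qCoeff h (p * n) + ε (p : ZMod N) * (if p ∣ n then qCoeff h (n / p) else 0) =
          qCoeff h p * qCoeff h n) ∧
      ∀ n, IsIntegral ℤ ((D : ℂ) * qCoeff h n) := by
  obtain ⟨-, h, D, hD, hh, hp, hint, -⟩ := eigen_package_Gamma1 hprim ε f ⟨hf₁, hT⟩
  exact ⟨h, D, hD, hh.1, hp, hh.2, hint⟩

include hprim in
/-- **Finitely many conjugates**: there is a finite set `T` of ring endomorphisms of `ℂ` such
that every ring endomorphism of `ℂ` agrees with a member of `T` on the ring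
`ℤ[ε][a_p : p ∤ N]`. -/
theorem exists_finset_conj (ε : DirichletCharacter ℂ N) {k : ℤ} (f : CuspForm (Gamma1 N) k)
    (hf : IsEigenSeq N ε (qCoeff f)) :
    ∃ T : Finset (ℂ →+* ℂ), ∀ t : ℂ →+* ℂ, ∃ t' ∈ T,
      ∀ z ∈ eigenRing N ε (qCoeff f), t z = t' z :=
  exists_finset_ringHom_of_fg _ (eigenRing_fg hprim ε f hf)

end Gamma1

end Fermat.Agent.DS.Conj
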