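import Mathlib
import Fermat.Agent.DS.EisChar
import Fermat.Agent.DS.Conj.Prim

/-!
# DS / Conj: `Γ₁(N)` has a primitive element

For `N ≥ 3` the weight `3` form

  `H = 2 ∑_{χ odd} B_χ`,   `B_χ = ∑_{n ≥ 1} (∑_{xy = n} χ(x) y²) qⁿ`  (`Fermat.Agent.DS.EisChar.eisB`)

is a modular form on `Γ₁(N)` with integral `q`-expansion
`φ(N) ∑_n (∑_{xy = n} ([x ≡ 1] - [x ≡ -1]) y²) qⁿ`, and `H ∣ γ = 2 ∑_{χ odd} χ(d_γ) B_χ` for
`γ ∈ Γ₀(N)`; comparing the coefficients of `q` shows that `H ∣ γ = H` forces `d_γ ≡ 1`, i.e.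
`γ ∈ Γ₁(N)`.  With `Fermat.Agent.DS.Conj.hasPrim_Gamma1_of_weight_three` this gives a primitive
element for `Γ₁(N)`; for `N ≤ 2` one has `Γ₀(N) = Γ₁(N)` and the primitive element of `Γ₀(N)`
works.
-/

set_option autoImplicit false

open UpperHalfPlane ModularForm CongruenceSubgroup
open scoped MatrixGroups Manifold

namespace Fermat.Agent.DS.Conj

open Fermat.Agent.S23 Fermat.Agent.DS.EisChar

/-- The odd Dirichlet characters mod `N`. -/
noncomputable def oddChars (N : ℕ) [NeZero N] : Finset (DirichletCharacter ℂ N) :=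
  Finset.univ.filter fun χ => χ (-1) = -1

theorem mem_oddChars {N : ℕ} [NeZero N] {χ : DirichletCharacter ℂ N} :
    χ ∈ oddChars N ↔ χ (-1) = -1 := by
  simp [oddChars]

theorem oddChars_parity {N : ℕ} [NeZero N] {χ : DirichletCharacter ℂ N} (h : χ ∈ oddChars N) :
    χ (-1) = (-1) ^ 3 := by
  rw [mem_oddChars.mp h]
  norm_num

/-- Orthogonality for odd characters. -/
theorem two_mul_sum_oddChars {N : ℕ} [NeZero N] (a : ZMod N) :
    2 * ∑ χ ∈ oddChars N, χ a =
      (N.totient : ℂ) * ((if a = 1 then 1 else 0) - (if a = -1 then 1 else 0)) := by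
  classical
  have key : ∀ χ : DirichletCharacter ℂ N,
      (if χ (-1) = -1 then 2 * χ a else 0) = χ a - χ (-a) := by
    intro χ
    have h1 : χ (-a) = χ (-1) * χ a := by rw [← map_mul, neg_one_mul]
    have h2 : χ (-1) = 1 ∨ χ (-1) = -1 := by
      have : χ (-1) * χ (-1) = 1 := by
        rw [← map_mul]
        simp
      exact mul_self_eq_one_iff.mp this
    rcases h2 with h | h
    · rw [h1, h, if_neg (by norm_num)]
      ring
    · rw [h1, h, if_pos rfl]
      ring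
  have h3 : (if -a = 1 then (N.totient : ℂ) else 0) = if a = -1 then (N.totient : ℂ) else 0 := by
    have : (-a = 1) ↔ (a = -1) := neg_eq_iff_eq_neg
    simp only [this]
  calc 2 * ∑ χ ∈ oddChars N, χ a = ∑ χ ∈ oddChars N, 2 * χ a := Finset.mul_sum _ _ _
    _ = ∑ χ : DirichletCharacter ℂ N, if χ (-1) = -1 then 2 * χ a else 0 := by
        rw [oddChars, Finset.sum_filter]
    _ = ∑ χ : DirichletCharacter ℂ N, (χ a - χ (-a)) := Finset.sum_congr rfl fun χ _ => key χ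
    _ = (if a = 1 then (N.totient : ℂ) else 0) - (if a = -1 then (N.totient : ℂ) else 0) := by
        rw [Finset.sum_sub_distrib, DirichletCharacter.sum_characters_eq ℂ a,
          DirichletCharacter.sum_characters_eq ℂ (-a), h3]
    _ = _ := by
        split_ifs <;> ring

theorem isBoundedAtImInfty_finset_sum {ι : Type*} (s : Finset ι) (f : ι → ℍ → ℂ)
    (h : ∀ i ∈ s, IsBoundedAtImInfty (f i)) : IsBoundedAtImInfty (∑ i ∈ s, f i) := by
  classical
  induction s using Finset.induction_on with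
  | empty => simpa using (zero_form_isBoundedAtImInfty (α := ℂ))
  | insert a s ha ih =>
    rw [Finset.sum_insert ha]
    exact Filter.BoundedAtFilter.add (h a (Finset.mem_insert_self a s))
      (ih fun i hi => h i (Finset.mem_insert_of_mem hi))

section

variable (N : ℕ) [NeZero N] (hN : 3 ≤ N)

/-- The underlying function of `eisH`. -/
noncomputable def eisHFun : ℍ → ℂ := (2 : ℂ) • ∑ χ ∈ oddChars N, eisB χ 3

omit [NeZero N] in
theorem eisB_slash_three (χ : DirichletCharacter ℂ N) (γ : SL(2, ℤ)) (hγ : γ ∈ Gamma0 N) :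
    eisB χ 3 ∣[(3 : ℤ)] γ = χ ((γ 1 1 : ℤ) : ZMod N) • eisB χ 3 :=
  eisB_slash χ 3 γ hγ

theorem eisHFun_slash (γ : SL(2, ℤ)) (hγ : γ ∈ Gamma0 N) :
    eisHFun N ∣[(3 : ℤ)] γ =
      (2 : ℂ) • ∑ χ ∈ oddChars N, χ ((γ 1 1 : ℤ) : ZMod N) • eisB χ 3 := by
  unfold eisHFun
  rw [ModularForm.SL_smul_slash, SlashAction.sum_slash]
  congr 1
  exact Finset.sum_congr rfl fun χ _ => eisB_slash_three N χ γ hγ

include hN in
theorem qan_eisB_odd {χ : DirichletCharacter ℂ N} (h : χ ∈ oddChars N) : QAn (eisB χ 3) :=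
  qan_eisB χ (by omega) le_rfl (oddChars_parity h)

include hN in
theorem qan_eisHFun : QAn (eisHFun N) :=
  (QAn.sum _ fun _ hχ => qan_eisB_odd N hN hχ).smul 2

/-- The weight `3` modular form `H = 2 ∑_{χ odd} B_χ` on `Γ₁(N)`, `N ≥ 3`. -/
noncomputable def eisH : ModularForm (Gamma1 N) 3 where
  toFun := eisHFun N
  slash_action_eq' := by
    rintro γ ⟨γ', hγ', rfl⟩
    change eisHFun N ∣[(3 : ℤ)] γ' = eisHFun N
    rw [eisHFun_slash N γ' (Gamma1_in_Gamma0 N hγ')]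
    have hd : ((γ' 1 1 : ℤ) : ZMod N) = 1 := ((Gamma1_mem N γ').mp hγ').2.1
    unfold eisHFun
    congr 1
    refine Finset.sum_congr rfl fun χ _ => ?_
    rw [hd, map_one, one_smul]
  holo' := (qan_eisHFun N hN).hol
  bdd_at_cusps' := by
    intro cu hcu
    rw [Subgroup.IsArithmetic.isCusp_iff_isCusp_SL2Z] at hcu
    rw [OnePoint.isBoundedAt_iff_forall_SL2Z hcu]
    intro γ _
    unfold eisHFun
    rw [ModularForm.SL_smul_slash, SlashAction.sum_slash]
    exact (isBoundedAtImInfty_finset_sum _ _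
      fun χ _ => isBoundedAtImInfty_eisB_slash χ le_rfl γ).const_smul_left _

theorem coe_eisH : (⇑(eisH N hN) : ℍ → ℂ) = eisHFun N := rfl

include hN in
/-- The `q`-expansion of `2 ∑_{χ odd} c_χ B_χ`. -/
theorem coeff_sum_smul_eisB (c : DirichletCharacter ℂ N → ℂ) (n : ℕ) :
    (qExpansion 1 ((2 : ℂ) • ∑ χ ∈ oddChars N, c χ • eisB χ 3)).coeff n =
      2 * ∑ χ ∈ oddChars N, c χ * sigmaChar χ 3 n := by
  have hq : ∀ χ ∈ oddChars N, QAn (c χ • eisB χ 3) := fun χ hχ => (qan_eisB_odd N hN hχ).smul _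
  rw [(QAn.sum _ hq).qExpansion_smul, QAn.qExpansion_sum _ hq]
  simp only [map_smul, map_sum, smul_eq_mul]
  congr 1
  refine Finset.sum_congr rfl fun χ hχ => ?_
  rw [(qan_eisB_odd N hN hχ).qExpansion_smul, map_smul, smul_eq_mul,
    qExpansion_eisB_coeff χ (by omega) le_rfl (oddChars_parity hχ)]

include hN in
theorem coeff_eisH (n : ℕ) :
    (qExpansion 1 (eisH N hN)).coeff n =
      ∑ x ∈ n.divisorsAntidiagonal, (N.totient : ℂ) *
        ((if ((x.1 : ℕ) : ZMod N) = 1 then 1 else 0) -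
          (if ((x.1 : ℕ) : ZMod N) = -1 then 1 else 0)) * (x.2 : ℂ) ^ 2 := by
  have h1 : eisHFun N = (2 : ℂ) • ∑ χ ∈ oddChars N, (1 : ℂ) • eisB χ 3 := by
    unfold eisHFun
    simp
  rw [coe_eisH, h1, coeff_sum_smul_eisB N hN]
  simp only [one_mul, sigmaChar]
  rw [Finset.sum_comm, Finset.mul_sum]
  refine Finset.sum_congr rfl fun x _ => ?_
  rw [← Finset.sum_mul, ← mul_assoc, two_mul_sum_oddChars]

include hN in
theorem eisH_int (n : ℕ) : ∃ m : ℤ, (qExpansion 1 (eisH N hN)).coeff n = (m : ℂ) := by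
  classical
  refine ⟨∑ x ∈ n.divisorsAntidiagonal, (N.totient : ℤ) *
        ((if ((x.1 : ℕ) : ZMod N) = 1 then 1 else 0) -
          (if ((x.1 : ℕ) : ZMod N) = -1 then 1 else 0)) * (x.2 : ℤ) ^ 2, ?_⟩
  rw [coeff_eisH N hN]
  push_cast
  refine Finset.sum_congr rfl fun x _ => ?_
  split_ifs <;> simp

omit [NeZero N] in
include hN in
theorem one_ne_neg_one_zmod : (1 : ZMod N) ≠ -1 := by
  intro h
  have h2 : ((2 : ℕ) : ZMod N) = 0 := by
    have : (1 : ZMod N) + 1 = 0 := by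
      nth_rewrite 1 [h]
      exact neg_add_cancel 1
    push_cast
    rw [← this]
    norm_num
  rw [ZMod.natCast_eq_zero_iff] at h2
  have := Nat.le_of_dvd (by norm_num) h2
  omega

include hN in
/-- Elements of `Γ₀(N)` fixing `H` lie in `Γ₁(N)`. -/
theorem eisH_stab (γ : SL(2, ℤ)) (hγ : γ ∈ Gamma0 N)
    (h : (⇑(eisH N hN) : ℍ → ℂ) ∣[(3 : ℤ)] γ = ⇑(eisH N hN)) : γ ∈ Gamma1 N := by
  classical
  set d : ZMod N := ((γ 1 1 : ℤ) : ZMod N) with hd
  have hφ : (N.totient : ℂ) ≠ 0 := by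
    exact_mod_cast (Nat.totient_pos.mpr (NeZero.pos N)).ne'
  -- compare the coefficients of `q`
  have h1 : (qExpansion 1 ((⇑(eisH N hN) : ℍ → ℂ) ∣[(3 : ℤ)] γ)).coeff 1 =
      (N.totient : ℂ) * ((if d = 1 then 1 else 0) - (if d = -1 then 1 else 0)) := by
    rw [coe_eisH, eisHFun_slash N γ hγ, coeff_sum_smul_eisB N hN]
    simp only [sigmaChar_one, mul_one]
    exact two_mul_sum_oddChars d
  have h2 : (qExpansion 1 (eisH N hN)).coeff 1 = (N.totient : ℂ) := by
    have h3 : eisHFun N = (2 : ℂ) • ∑ χ ∈ oddChars N, (1 : ℂ) • eisB χ 3 := by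
      unfold eisHFun
      simp
    rw [coe_eisH, h3, coeff_sum_smul_eisB N hN]
    simp only [sigmaChar_one, mul_one]
    have h4 := two_mul_sum_oddChars (N := N) 1
    rw [if_pos rfl, if_neg (one_ne_neg_one_zmod N hN)] at h4
    simp only [map_one] at h4
    rw [h4]
    ring
  rw [h, h2] at h1
  have hd1 : d = 1 := by
    by_contra hne
    rw [if_neg hne] at h1
    have h5 : (N.totient : ℂ) * (1 + (if d = -1 then (1 : ℂ) else 0)) = 0 := by
      linear_combination h1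
    rcases mul_eq_zero.mp h5 with h6 | h6
    · exact hφ h6
    · split_ifs at h6 <;> norm_num at h6
  rw [Gamma1_mem]
  have hc : ((γ 1 0 : ℤ) : ZMod N) = 0 := Gamma0_mem.mp hγ
  refine ⟨?_, hd1, hc⟩
  have hdet : γ 0 0 * γ 1 1 - γ 0 1 * γ 1 0 = 1 := by
    have := γ.det_coe
    rw [Matrix.det_fin_two] at this
    exact this
  have := congrArg (fun z : ℤ => (z : ZMod N)) hdet
  simp only [Int.cast_sub, Int.cast_mul, Int.cast_one] at this
  rw [hc, mul_zero, sub_zero] at this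
  rw [← hd, hd1, mul_one] at this
  exact this

end

/-- For `N ≤ 2`, `Γ₀(N) ≤ Γ₁(N)`. -/
theorem Gamma0_le_Gamma1_of_le_two (N : ℕ) [NeZero N] (hN : N ≤ 2) : Gamma0 N ≤ Gamma1 N := by
  intro γ hγ
  have hc : ((γ 1 0 : ℤ) : ZMod N) = 0 := Gamma0_mem.mp hγ
  have hdet : γ 0 0 * γ 1 1 - γ 0 1 * γ 1 0 = 1 := by
    have := γ.det_coe
    rw [Matrix.det_fin_two] at this
    exact this
  have h1 := congrArg (fun z : ℤ => (z : ZMod N)) hdet
  simp only [Int.cast_sub, Int.cast_mul, Int.cast_one] at h1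
  rw [hc, mul_zero, sub_zero] at h1
  rw [Gamma1_mem]
  have hN0 : N ≠ 0 := NeZero.ne N
  have hcases : N = 1 ∨ N = 2 := by omega
  rcases hcases with rfl | rfl
  · exact ⟨Subsingleton.elim _ _, Subsingleton.elim _ _, hc⟩
  · have key : ∀ a d : ZMod 2, a * d = 1 → a = 1 ∧ d = 1 := by decide
    obtain ⟨ha, hd⟩ := key _ _ h1
    exact ⟨ha, hd, hc⟩

/-- **`Γ₁(N)` has a primitive element.** -/
theorem hasPrim_Gamma1 (N : ℕ) [NeZero N] : HasPrim (Gamma1 N) := by
  by_cases hN : 3 ≤ N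
  · exact hasPrim_Gamma1_of_weight_three N (eisH N hN) (eisH_int N hN) (eisH_stab N hN)
  · refine hasPrim_Gamma1_of_weight_three N 0 (fun n => ⟨0, ?_⟩)
      (fun γ hγ _ => Gamma0_le_Gamma1_of_le_two N (by omega) hγ)
    have : (⇑(0 : ModularForm (Gamma1 N) 3) : ℍ → ℂ) = 0 := rfl
    rw [this, UpperHalfPlane.qExpansion_zero]
    simp

end Fermat.Agent.DS.Conj
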